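/-
P-ORD (S33), helper72 (co-architect, block CONN + (b)): INTERFACES.

Target of the geometry (blocks B1/B2):  `NodalCoordDatumStatement N p`
  = an INERTIA-ONLY coordinate datum `IsCoordDatumI` on a subgroup `J1` of `J₀(N)(ℚ̄)`
    + (a') `σ x - x ∈ J1` for `σ ∈ I`, `p ^ n x = 0`.
Output of this block:  `NoTrivOfCoordStatement` : every finite `p`-primary subgroup `W1 ≤ J1` has
no unramified subquotient (= clause (b) of `H14.ORD.OrdinaryTorsionStatement`, EXACT).

Chain:
  IsCoordDatumI  ==(C2) ConnOrderOfCoordStatement==>  a CONNECTED inertia-equivariant Hopf order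
     `IsConnOrderI` on every finite `I`-stable subgroup `Z ≤ J1`
  ==(C1) RELATIVE HOPF LEMMA `RelHopfStatement`==>  if `Y ≤ Z`, `I` acts trivially on `Z / Y` and
     `Z / Y` is a `p`-group then `Z = Y`
  ==(C3)==>  `NoTrivOfCoordStatement`.

The relative Hopf lemma is split into three leaves:
  (C1a) `InvSepStatement`        : `ρ • 1_Y ∈ Hu` for some `ρ ≠ 0`;
  (C1b) `OneSidedComulStatement` : a `Y`-invariant `f ∈ Hu` has a comultiplication
        `f (z + z') = ∑ a_i z * b_i z'` with `a_i ∈ Hu` `Y`-INVARIANT and `b_i ∈ Hu`;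
  (C1c) `RelHopfCoreStatement`   : the induction "`f z - f 0 ∈ p ^ n R` for all `n`" for the
        `Y`-invariant functions, on the points `z` with `p z ∈ Y`.
-/
import Fermat.Agent.H72.FF.Interfaces
import Fermat.Agent.H14.ORD.Interfaces

set_option autoImplicit false

noncomputable section

namespace Fermat.Agent.H72.ORD

open Fermat.Agent.H10.FF Fermat.Agent.H72.FF ModularCurve

/-- **Inertia-only coordinate datum**: as `H72.FF.IsCoordDatum`, with stability of `J1` under the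
INERTIA group only (no statement about the decomposition group). -/
structure IsCoordDatumI (ℓ : ℕ) (A : ValuationSubring Qb) (J : Type) [AddCommGroup J]
    [DistribMulAction GQ J] (g : ℕ) (J1 : AddSubgroup J) (z : J → Fin g → Qb) : Prop where
  /-- the coordinates lie in the maximal ideal -/
  z_mem : ∀ c ∈ J1, ∀ i, z c i ∈ A ∧ z c i ∈ A.nonunits
  /-- the coordinates separate the points of `J1` -/
  z_inj : ∀ c ∈ J1, ∀ c' ∈ J1, z c = z c' → c = c'
  /-- `J1` is stable under the inertia group -/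
  inertia_stable : ∀ σ ∈ A.inertiaSubgroupIn ℚ, ∀ c ∈ J1, σ • c ∈ J1
  /-- the coordinates are equivariant for the inertia group -/
  z_equiv : ∀ σ ∈ A.inertiaSubgroupIn ℚ, ∀ c ∈ J1, ∀ i, z (σ • c) i = σ (z c i)
  /-- the group law is approximable by polynomials over `R = unrInt A` -/
  add_approx : ∀ S : Finset J, (∀ c ∈ S, c ∈ J1) → ∀ M : ℕ,
    ∃ G : Fin g → MvPolynomial (Fin g ⊕ Fin g) Qb,
      (∀ i m, (G i).coeff m ∈ unrInt A) ∧
      ∀ c ∈ S, ∀ c' ∈ S, ∀ i, ∃ a ∈ A,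
        z (c + c') i - MvPolynomial.eval (Sum.elim (z c) (z c')) (G i) = (ℓ : Qb) ^ M * a

/-- A coordinate datum in the sense of P-FF is an inertia-only coordinate datum. -/
theorem IsCoordDatumI.of_coordDatum {ℓ : ℕ} {A : ValuationSubring Qb} {J : Type}
    [AddCommGroup J] [DistribMulAction GQ J] {g : ℕ} {J1 : AddSubgroup J} {z : J → Fin g → Qb}
    (h : IsCoordDatum ℓ A J g J1 z)
    (hID : ∀ σ ∈ A.inertiaSubgroupIn ℚ, σ ∈ A.decompositionSubgroup ℚ) :
    IsCoordDatumI ℓ A J g J1 z where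
  z_mem := h.z_mem
  z_inj := h.z_inj
  inertia_stable := fun σ hσ c hc => h.dec_stable σ (hID σ hσ) c hc
  z_equiv := h.z_equiv
  add_approx := h.add_approx

open Classical in
/-- The Galois "action" on a subgroup which is stable under some of the `σ` (the identity for
the other `σ`). -/
def subActI {J : Type} [AddCommGroup J] [DistribMulAction GQ J] (Z : AddSubgroup J) :
    GQ → Z → Z :=
  fun σ P => if h : σ • (P : J) ∈ Z then ⟨σ • (P : J), h⟩ else P

theorem subActI_coe {J : Type} [AddCommGroup J] [DistribMulAction GQ J] (Z : AddSubgroup J)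
    (σ : GQ) (P : Z) (h : σ • (P : J) ∈ Z) : ((subActI Z σ P : Z) : J) = σ • (P : J) := by
  unfold subActI
  rw [dif_pos h]

/-- **Connected inertia-equivariant Hopf order**: a ring of `ℚ̄`-valued functions on `Z`
containing the constants of `R = unrInt A`, integral valued, inertia equivariant, separating
points, closed under comultiplication, all of whose functions are constant modulo the maximal
ideal of `A`. -/
structure IsConnOrderI (A : ValuationSubring Qb) {Z : Type} [AddCommGroup Z]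
    (act : GQ → Z → Z) (Hu : Subring (Z → Qb)) : Prop where
  const_mem : ∀ c ∈ unrInt A, (fun _ : Z => c) ∈ Hu
  integral : ∀ h ∈ Hu, ∀ z : Z, h z ∈ A
  inertia_equiv : ∀ h ∈ Hu, ∀ σ ∈ A.inertiaSubgroupIn ℚ, ∀ z : Z, h (act σ z) = σ (h z)
  separates : ∀ z z' : Z, z ≠ z' → ∃ h ∈ Hu, h z ≠ h z'
  comul_mem : ∀ h ∈ Hu, ∃ (n : ℕ) (a b : Fin n → Z → Qb),
    (∀ i, a i ∈ Hu) ∧ (∀ i, b i ∈ Hu) ∧ ∀ z z' : Z, h (z + z') = ∑ i, a i z * b i z'
  connected : ∀ h ∈ Hu, ∀ z : Z, h z - h 0 ∈ A.nonunits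

/-- invariance under the translations by a subgroup -/
def IsInv {Z : Type} [AddCommGroup Z] (Y : AddSubgroup Z) (f : Z → Qb) : Prop :=
  ∀ z : Z, ∀ y ∈ Y, f (z + y) = f z

/-- **(C2) CONN.**  An inertia-only coordinate datum gives a connected Hopf order on every
finite inertia-stable subgroup of `J1`.
Construction: `Hu` := the ring generated by the constants of `R` and the coordinate functions
`P ↦ z P i`; comultiplication by `add_approx` + `H42.FFC.cramer_tens`. -/
def ConnOrderOfCoordStatement : Prop :=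
  ∀ (ℓ : ℕ) [Fact ℓ.Prime] (A : ValuationSubring Qb), A.LiesOverPrime ℓ →
    ∀ (J : Type) [AddCommGroup J] [DistribMulAction GQ J] (g : ℕ) (J1 : AddSubgroup J)
      (z : J → Fin g → Qb), IsCoordDatumI ℓ A J g J1 z →
    ∀ (Z : AddSubgroup J) [Finite Z], Z ≤ J1 →
      (∀ σ ∈ A.inertiaSubgroupIn ℚ, ∀ P ∈ Z, σ • P ∈ Z) →
      ∃ Hu : Subring (Z → Qb), IsConnOrderI A (subActI Z) Hu

/-- **(C1a)** Some nonzero multiple of the indicator function of an inertia-stable subgroup
lies in the order. -/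
def InvSepStatement : Prop :=
  ∀ (p : ℕ) [Fact p.Prime] (A : ValuationSubring Qb), PlaceFacts p A →
    ∀ (Z : Type) [AddCommGroup Z] [Finite Z] (act : GQ → Z → Z) (Hu : Subring (Z → Qb)),
      IsConnOrderI A act Hu →
      (∀ σ ∈ A.inertiaSubgroupIn ℚ, Function.Surjective (act σ)) →
      ∀ Y : AddSubgroup Z, (∀ σ ∈ A.inertiaSubgroupIn ℚ, ∀ y ∈ Y, act σ y ∈ Y) →
        ∃ e ∈ Hu, ∃ ρ : Qb, ρ ≠ 0 ∧ (∀ y ∈ Y, e y = ρ) ∧ ∀ z : Z, z ∉ Y → e z = 0

/-- **(C1b)** One-sided comultiplication of the invariant functions. -/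
def OneSidedComulStatement : Prop :=
  ∀ (p : ℕ) [Fact p.Prime] (A : ValuationSubring Qb), PlaceFacts p A →
    ∀ (Z : Type) [AddCommGroup Z] [Finite Z] (act : GQ → Z → Z) (Hu : Subring (Z → Qb)),
      IsConnOrderI A act Hu →
      (∀ σ ∈ A.inertiaSubgroupIn ℚ, Function.Surjective (act σ)) →
      ∀ Y : AddSubgroup Z, ∀ f ∈ Hu, IsInv Y f →
        ∃ (n : ℕ) (a b : Fin n → Z → Qb),
          (∀ i, a i ∈ Hu ∧ IsInv Y (a i)) ∧ (∀ i, b i ∈ Hu) ∧
          ∀ z z' : Z, f (z + z') = ∑ i, a i z * b i z'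

/-- **(C1c)** The induction of the Hopf lemma for the invariant functions. -/
def RelHopfCoreStatement : Prop :=
  ∀ (p : ℕ) [Fact p.Prime], p ≠ 2 → ∀ (A : ValuationSubring Qb), PlaceFacts p A →
    ∀ (Z : Type) [AddCommGroup Z] [Finite Z] (act : GQ → Z → Z) (Hu : Subring (Z → Qb)),
      IsConnOrderI A act Hu →
      ∀ Y : AddSubgroup Z, (∀ σ ∈ A.inertiaSubgroupIn ℚ, ∀ z : Z, act σ z - z ∈ Y) →
        (∀ f ∈ Hu, IsInv Y f → ∃ (n : ℕ) (a b : Fin n → Z → Qb),
          (∀ i, a i ∈ Hu ∧ IsInv Y (a i)) ∧ (∀ i, b i ∈ Hu) ∧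
          ∀ z z' : Z, f (z + z') = ∑ i, a i z * b i z') →
        ∀ f ∈ Hu, IsInv Y f → ∀ z : Z, p • z ∈ Y → f z = f 0

/-- **(C1) RELATIVE HOPF LEMMA.**  A connected inertia-equivariant Hopf order on `Z` (`p` odd),
`Y ≤ Z` a subgroup such that the inertia group acts trivially on `Z / Y` and `Z / Y` is a
`p`-group: then `Z = Y`. -/
def RelHopfStatement : Prop :=
  ∀ (p : ℕ) [Fact p.Prime], p ≠ 2 → ∀ (A : ValuationSubring Qb), PlaceFacts p A →
    ∀ (Z : Type) [AddCommGroup Z] [Finite Z] (act : GQ → Z → Z) (Hu : Subring (Z → Qb)),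
      IsConnOrderI A act Hu →
      (∀ σ ∈ A.inertiaSubgroupIn ℚ, Function.Surjective (act σ)) →
      ∀ Y : AddSubgroup Z, (∀ σ ∈ A.inertiaSubgroupIn ℚ, ∀ y ∈ Y, act σ y ∈ Y) →
        (∀ σ ∈ A.inertiaSubgroupIn ℚ, ∀ z : Z, act σ z - z ∈ Y) →
        (∀ z : Z, ∃ n : ℕ, p ^ n • z ∈ Y) →
        ∀ z : Z, z ∈ Y

/-- **(C3) = clause (b).**  Every finite `p`-primary subgroup of `J1` has no unramified
subquotient. -/
def NoTrivOfCoordStatement : Prop :=
  ∀ (p : ℕ) [Fact p.Prime], p ≠ 2 → ∀ (A : ValuationSubring Qb), PlaceFacts p A →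
    ∀ (J : Type) [AddCommGroup J] [DistribMulAction GQ J] (g : ℕ) (J1 : AddSubgroup J)
      (z : J → Fin g → Qb), IsCoordDatumI p A J g J1 z →
    ∀ W1 : AddSubgroup J, W1 ≤ J1 → (W1 : Set J).Finite →
      (∀ x ∈ W1, ∃ n : ℕ, p ^ n • x = 0) →
      Fermat.Agent.H14.ORD.NoTrivSubquot
        (A.inertiaSubgroupIn ℚ : Set GQ) W1

/-- **TARGET OF THE GEOMETRY (B1 + B2).**  At a level `N` (auxiliary level included) and a place
`A` over `p`: an inertia-only coordinate datum on a subgroup `J1` of `J₀(N)(ℚ̄)` such that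
(a') `σ x - x ∈ J1` for all `σ` in the inertia group and all `p`-power torsion points `x`. -/
def NodalCoordDatumStatement (N p : ℕ) [NeZero N] : Prop :=
  ∀ A : ValuationSubring Qb, A.LiesOverPrime p →
    ∃ (g : ℕ) (J1 : AddSubgroup (JZero N)) (z : JZero N → Fin g → Qb),
      IsCoordDatumI p A (JZero N) g J1 z ∧
      ∀ n : ℕ, ∀ σ ∈ A.inertiaSubgroupIn ℚ, ∀ x : JZero N, p ^ n • x = 0 → σ • x - x ∈ J1

end Fermat.Agent.H72.ORD

end
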