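/-
P-ORD (S33), helper72 (architect of block B2): THE NODAL GEOMETRIC BLOCKS, on top of helper18's
abstract two-valuation interface (`Fermat.Agent.H18.ORD`: `NodalData`, `NodalRvHyp` (M2)-(M5),
`NodalGalHyp`, `NodalLift` (PT)+(LIFT), `CompHyp` value lemma, `NodalBase` (NS1)+(NS2),
`NodalRvHyp.bal`).

Standing hypotheses = `NodalSetup N p A Foo F0 ι G g`  (output of block B1, per place `A`).

Blocks (all `Prop`-valued; provers land `theorem foo : <Name>Statement`):
  [BASE]  `NodalJacSystemStatement`  : base points `O i` (inertia-fixed, smooth, distinct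
          specialisations, (NS1)+(NS2)) and inertia-fixed coordinates `t i`;
  [SUB]   `NodalSubStatement`        : the classes `[∑ (P i - O i)]`, `P i` in the disc of `O i`,
          are closed under subtraction                                  (BAL, no lifting);
  [UNIQ]  `NodalUniqStatement`       : the representation is unique     (BAL + lattice);
  [COORD] `NodalJacCoordStatement`   : `J1`, `z` and the first four fields of `IsCoordDatumI`;
  [AP]    `NodalKummerStatement`     : (a')  `σ x - x ∈ J1`             (KummerA + MOVE);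
  [JAC]   `NodalAddApproxStatement`  : the group law is approximable    (LIFT + explicit Jacobi).

Assembly: `nodalGeo_of_blocks`, `nodalCoordDatum_of_instance`.
-/
import Fermat.Agent.H72.ORD.Interfaces
import Fermat.Agent.H18.ORD.NodalLiftDefs

set_option autoImplicit false
set_option synthInstance.maxHeartbeats 400000
set_option linter.style.haveILetI false
set_option linter.unusedSectionVars false

noncomputable section

open AlgebraicCurve ModularCurve Fermat.Agent.H18.ORD Fermat.Agent.H27.ESD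

namespace Fermat.Agent.H72.ORD

open Fermat.Agent.H10.FF Fermat.Agent.H72.FF

variable {N : ℕ} {A : ValuationSubring Qb} {Foo F0 : Type} [Field Foo] [Field F0]
  [Algebra (kRes A) Foo] [Algebra (kRes A) F0] {ι : Type}

/-- **Standing hypotheses of the nodal geometric blocks** (= the output of block B1 at the
place `A`).  `g` is the genus of `F_L = ℚ̄(X₀(N))`; `genus_eq` is the count of the nodes
`p_a(X_s) = g_∞ + g_0 + s - 1 = g`. -/
structure NodalSetup (N p : ℕ) (A : ValuationSubring Qb) (Foo F0 : Type) [Field Foo] [Field F0]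
    [Algebra (kRes A) Foo] [Algebra (kRes A) F0] (ι : Type) (G : NodalData N A Foo F0 ι)
    (g : ℕ) : Prop where
  prime : p.Prime
  liesOver : A.LiesOverPrime p
  algClosed : IsAlgClosed (kRes A)
  rv : NodalRvHyp p G
  gal : NodalGalHyp G
  lift : NodalLift G
  finite_nodes : Finite ι
  nonempty_nodes : Nonempty ι
  pkgL : RiemannPackage Qb (FLb N) g
  rrOo : Fermat.Agent.H58.RRHyp (kRes A) Foo
  rrZero : Fermat.Agent.H58.RRHyp (kRes A) F0
  genus_eq : g + 1 = genusFF (kRes A) Foo + genusFF (kRes A) F0 + Nat.card ι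

/-- **OUTPUT OF BLOCK B1** at the level `N` (an auxiliary level with `p ∥ N`): a nodal reduction
with all standing hypotheses, at every place over `p`. -/
def NodalInstanceStatement (N p : ℕ) : Prop :=
  ∀ A : ValuationSubring Qb, A.LiesOverPrime p →
    ∃ (Foo F0 : Type) (_ : Field Foo) (_ : Field F0) (_ : Algebra (kRes A) Foo)
      (_ : Algebra (kRes A) F0) (ι : Type) (G : NodalData N A Foo F0 ι) (g : ℕ),
      NodalSetup N p A Foo F0 ι G g

/-- smooth points of the special fibre -/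
def IsSmoothNPt (x : NPt (Place (kRes A) Foo) (Place (kRes A) F0) ι) : Prop :=
  (∃ Q, x = NPt.oo Q) ∨ (∃ Q, x = NPt.zero Q)

/-- A nodal Jacobi coordinate system: `g` inertia-fixed places `O i` with distinct smooth
specialisations, whose reduced divisors `Boo` (on `C_∞`) and `B0` (on `C_0`) satisfy (NS1) and
(NS2), and an inertia-fixed coordinate `t i` on the residue disc of each `O i`. -/
structure IsNodalJacSystem (G : NodalData N A Foo F0 ι) (g : ℕ)
    (O : Fin g → Place Qb (FLb N)) (t : Fin g → FLb N)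
    (Boo : Divisor (kRes A) Foo) (B0 : Divisor (kRes A) F0) : Prop where
  smooth : ∀ i, IsSmoothNPt (G.r (O i))
  inj : Function.Injective fun i => G.r (O i)
  base : NodalBase G Boo B0
  boo_one : ∀ i Q, G.r (O i) = NPt.oo Q → Boo Q = 1
  boo_zero : ∀ Q, (∀ i, G.r (O i) ≠ NPt.oo Q) → Boo Q = 0
  b0_one : ∀ i Q, G.r (O i) = NPt.zero Q → B0 Q = 1
  b0_zero : ∀ Q, (∀ i, G.r (O i) ≠ NPt.zero Q) → B0 Q = 0
  unrO : ∀ i, IsUnrPlace A N (O i)
  unrT : ∀ i, IsUnrFn A N (t i)
  zero : ∀ i, 1 ≤ (O i).ord (t i)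
  nopole : ∀ i P1, G.r P1 = G.r (O i) → 0 ≤ P1.ord (t i)
  simple_oo : ∀ i Q, G.r (O i) = NPt.oo Q → ∃ h : t i ∈ G.Voo, Q.ord (G.redOo ⟨t i, h⟩) = 1
  simple_zero : ∀ i Q, G.r (O i) = NPt.zero Q → ∃ h : t i ∈ G.V0, Q.ord (G.red0 ⟨t i, h⟩) = 1

/-- "`c` is the class of `∑ (P i - O i)` with `P i` in the residue disc of `O i`" -/
def IsRepN (G : NodalData N A Foo F0 ι) {g : ℕ} (O : Fin g → Place Qb (FLb N))
    (c : JZero N) (P : Fin g → Place Qb (FLb N)) : Prop :=
  ∃ D : Divisor.degZero (K := Qb) (F := FLb N),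
    (∀ i, G.r (P i) = G.r (O i)) ∧
    (D : Divisor Qb (FLb N)) = ∑ i, (Finsupp.single (P i) (1 : ℤ) - Finsupp.single (O i) 1) ∧
    c = Pic0.mk D

/-- `z` is the coordinate map of the system on `J1`: `c ∈ J1` iff `c = [∑ (P i - O i)]` with
`P i` in the disc of `O i`, and then `z c i = t_i(P i)`. -/
structure IsNodalJacCoord (G : NodalData N A Foo F0 ι) {g : ℕ}
    (O : Fin g → Place Qb (FLb N)) (t : Fin g → FLb N) (J1 : AddSubgroup (JZero N))
    (z : JZero N → Fin g → Qb) : Prop where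
  mem_iff : ∀ c : JZero N, c ∈ J1 ↔ ∃ P : Fin g → Place Qb (FLb N), IsRepN G O c P
  value : ∀ (c : JZero N) (P : Fin g → Place Qb (FLb N)), IsRepN G O c P →
    ∀ i, HasValue (P i) (t i) (z c i)

/-- **[BASE]** Existence of a nodal Jacobi coordinate system. -/
def NodalJacSystemStatement : Prop :=
  ∀ (N p : ℕ) (A : ValuationSubring Qb) (Foo F0 : Type) [Field Foo] [Field F0]
    [Algebra (kRes A) Foo] [Algebra (kRes A) F0] (ι : Type) (G : NodalData N A Foo F0 ι)
    (g : ℕ), NodalSetup N p A Foo F0 ι G g →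
    ∃ (O : Fin g → Place Qb (FLb N)) (t : Fin g → FLb N)
      (Boo : Divisor (kRes A) Foo) (B0 : Divisor (kRes A) F0), IsNodalJacSystem G g O t Boo B0

/-- **[SUB]** The classes with a Jacobi representative are closed under subtraction. -/
def NodalSubStatement : Prop :=
  ∀ (N p : ℕ) (A : ValuationSubring Qb) (Foo F0 : Type) [Field Foo] [Field F0]
    [Algebra (kRes A) Foo] [Algebra (kRes A) F0] (ι : Type) (G : NodalData N A Foo F0 ι)
    (g : ℕ), NodalSetup N p A Foo F0 ι G g →
    ∀ (O : Fin g → Place Qb (FLb N)) (t : Fin g → FLb N)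
      (Boo : Divisor (kRes A) Foo) (B0 : Divisor (kRes A) F0),
      IsNodalJacSystem G g O t Boo B0 →
      ∀ (c c' : JZero N) (P P' : Fin g → Place Qb (FLb N)),
        IsRepN G O c P → IsRepN G O c' P' → ∃ P'', IsRepN G O (c - c') P''

/-- **[UNIQ]** Uniqueness of the Jacobi representative. -/
def NodalUniqStatement : Prop :=
  ∀ (N p : ℕ) (A : ValuationSubring Qb) (Foo F0 : Type) [Field Foo] [Field F0]
    [Algebra (kRes A) Foo] [Algebra (kRes A) F0] (ι : Type) (G : NodalData N A Foo F0 ι)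
    (g : ℕ), NodalSetup N p A Foo F0 ι G g →
    ∀ (O : Fin g → Place Qb (FLb N)) (t : Fin g → FLb N)
      (Boo : Divisor (kRes A) Foo) (B0 : Divisor (kRes A) F0),
      IsNodalJacSystem G g O t Boo B0 →
      ∀ (c : JZero N) (P P' : Fin g → Place Qb (FLb N)),
        IsRepN G O c P → IsRepN G O c P' → P = P'

/-- **[COORD]** The subgroup `J1`, the coordinate map `z`, and the first four fields of
`IsCoordDatumI`. -/
def NodalJacCoordStatement : Prop :=
  ∀ (N p : ℕ) [NeZero N] (A : ValuationSubring Qb) (Foo F0 : Type) [Field Foo] [Field F0]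
    [Algebra (kRes A) Foo] [Algebra (kRes A) F0] (ι : Type) (G : NodalData N A Foo F0 ι)
    (g : ℕ), NodalSetup N p A Foo F0 ι G g →
    ∀ (O : Fin g → Place Qb (FLb N)) (t : Fin g → FLb N)
      (Boo : Divisor (kRes A) Foo) (B0 : Divisor (kRes A) F0),
      IsNodalJacSystem G g O t Boo B0 →
      ∃ (J1 : AddSubgroup (JZero N)) (z : JZero N → Fin g → Qb),
        IsNodalJacCoord G O t J1 z ∧
        (∀ c ∈ J1, ∀ i, z c i ∈ A ∧ z c i ∈ A.nonunits) ∧
        (∀ c ∈ J1, ∀ c' ∈ J1, z c = z c' → c = c') ∧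
        (∀ σ ∈ A.inertiaSubgroupIn ℚ, ∀ c ∈ J1, σ • c ∈ J1) ∧
        (∀ σ ∈ A.inertiaSubgroupIn ℚ, ∀ c ∈ J1, ∀ i, z (σ • c) i = σ (z c i))

/-- **[AP]** (a'): the inertia group acts trivially on `J₀(N)[p ^ n]` modulo `J1`. -/
def NodalKummerStatement : Prop :=
  ∀ (N p : ℕ) [NeZero N] (A : ValuationSubring Qb) (Foo F0 : Type) [Field Foo] [Field F0]
    [Algebra (kRes A) Foo] [Algebra (kRes A) F0] (ι : Type) (G : NodalData N A Foo F0 ι)
    (g : ℕ), NodalSetup N p A Foo F0 ι G g →
    ∀ (O : Fin g → Place Qb (FLb N)) (t : Fin g → FLb N)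
      (Boo : Divisor (kRes A) Foo) (B0 : Divisor (kRes A) F0),
      IsNodalJacSystem G g O t Boo B0 →
      ∀ (J1 : AddSubgroup (JZero N)) (z : JZero N → Fin g → Qb), IsNodalJacCoord G O t J1 z →
        ∀ n : ℕ, ∀ σ ∈ A.inertiaSubgroupIn ℚ, ∀ x : JZero N, p ^ n • x = 0 → σ • x - x ∈ J1

/-- **[JAC]** The group law in nodal Jacobi coordinates is approximable by polynomials over
`R = unrInt A`. -/
def NodalAddApproxStatement : Prop :=
  ∀ (N p : ℕ) [NeZero N] (A : ValuationSubring Qb) (Foo F0 : Type) [Field Foo] [Field F0]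
    [Algebra (kRes A) Foo] [Algebra (kRes A) F0] (ι : Type) (G : NodalData N A Foo F0 ι)
    (g : ℕ), NodalSetup N p A Foo F0 ι G g →
    ∀ (O : Fin g → Place Qb (FLb N)) (t : Fin g → FLb N)
      (Boo : Divisor (kRes A) Foo) (B0 : Divisor (kRes A) F0),
      IsNodalJacSystem G g O t Boo B0 →
      ∀ (J1 : AddSubgroup (JZero N)) (z : JZero N → Fin g → Qb), IsNodalJacCoord G O t J1 z →
        ∀ S : Finset (JZero N), (∀ c ∈ S, c ∈ J1) → ∀ M : ℕ,
          ∃ Gp : Fin g → MvPolynomial (Fin g ⊕ Fin g) Qb,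
            (∀ i m, (Gp i).coeff m ∈ unrInt A) ∧
            ∀ c ∈ S, ∀ c' ∈ S, ∀ i, ∃ a ∈ A,
              z (c + c') i - MvPolynomial.eval (Sum.elim (z c) (z c')) (Gp i) = (p : Qb) ^ M * a

/-- **Assembly of block B2.** -/
theorem nodalGeo_of_blocks (hB : NodalJacSystemStatement) (hC : NodalJacCoordStatement)
    (hK : NodalKummerStatement) (hJ : NodalAddApproxStatement)
    (N p : ℕ) [NeZero N] (A : ValuationSubring Qb) (Foo F0 : Type) [Field Foo] [Field F0]
    [Algebra (kRes A) Foo] [Algebra (kRes A) F0] (ι : Type) (G : NodalData N A Foo F0 ι)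
    (g : ℕ) (hS : NodalSetup N p A Foo F0 ι G g) :
    ∃ (J1 : AddSubgroup (JZero N)) (z : JZero N → Fin g → Qb),
      IsCoordDatumI p A (JZero N) g J1 z ∧
      ∀ n : ℕ, ∀ σ ∈ A.inertiaSubgroupIn ℚ, ∀ x : JZero N, p ^ n • x = 0 → σ • x - x ∈ J1 := by
  obtain ⟨O, t, Boo, B0, hsys⟩ := hB N p A Foo F0 ι G g hS
  obtain ⟨J1, z, hz, hmem, hinj, hst, heq⟩ := hC N p A Foo F0 ι G g hS O t Boo B0 hsys
  refine ⟨J1, z, ?_, hK N p A Foo F0 ι G g hS O t Boo B0 hsys J1 z hz⟩
  exact
    { z_mem := hmem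
      z_inj := hinj
      inertia_stable := hst
      z_equiv := heq
      add_approx := hJ N p A Foo F0 ι G g hS O t Boo B0 hsys J1 z hz }

/-- **B1 + B2 ⟹ the geometric target.** -/
theorem nodalCoordDatum_of_instance (hB : NodalJacSystemStatement)
    (hC : NodalJacCoordStatement) (hK : NodalKummerStatement) (hJ : NodalAddApproxStatement)
    (N p : ℕ) [NeZero N] (hI : NodalInstanceStatement N p) : NodalCoordDatumStatement N p := by
  intro A hA
  obtain ⟨Foo, F0, i1, i2, i3, i4, ι, G, g, hS⟩ := hI A hA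
  obtain ⟨J1, z, h1, h2⟩ := nodalGeo_of_blocks hB hC hK hJ N p A Foo F0 ι G g hS
  exact ⟨g, J1, z, h1, h2⟩

end Fermat.Agent.H72.ORD

end
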