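/-
P-ORD (S33), helper72: ASSEMBLY of the block CONN + (b).

  `ordinaryTorsion_of_nodal` :
     ConnOrderOfCoordStatement (row ORD-C2)  →  NodalCoordDatumStatement N p (geometry B1 + B2)
       →  H14.ORD.OrdinaryTorsionStatement N p     (`c = 1`, `W1 = J1 ⊓ J₀(N)[p ^ n]`),

through helper14's `noTrivSubquot_of_subtypeOrder` (relative Hopf lemma, landed).
-/
import Fermat.Agent.H72.ORD.Interfaces
import Fermat.Agent.H14.ORD.NoSubFinal
import Fermat.Agent.H83.FF.Tors

set_option autoImplicit false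
set_option linter.style.haveILetI false
set_option linter.unusedSectionVars false

noncomputable section

namespace Fermat.Agent.H72.ORD

open Fermat.Agent.H10.FF Fermat.Agent.H72.FF ModularCurve

/-- A connected inertia-equivariant order for the operators `subActI Z` is a connected order on
the subtype in the sense of helper14. -/
theorem isConnSubtypeOrder_of_connOrderI {A : ValuationSubring Qb} {J : Type} [AddCommGroup J]
    [DistribMulAction GQ J] (Z : AddSubgroup J)
    (hst : ∀ σ ∈ A.inertiaSubgroupIn ℚ, ∀ P ∈ Z, σ • P ∈ Z) (Hu : Subring (Z → Qb))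
    (h : IsConnOrderI A (subActI Z) Hu) : Fermat.Agent.H14.ORD.IsConnSubtypeOrder A Z Hu where
  const_mem := h.const_mem
  integral := h.integral
  inertia_equiv := fun f hf σ hσ z z' e => by
    have hz' : z' = subActI Z σ z :=
      Subtype.ext (e.trans (subActI_coe Z σ z (hst σ hσ z z.2)).symm)
    rw [hz']
    exact h.inertia_equiv f hf σ hσ z
  separates := h.separates
  comul_mem := h.comul_mem
  connected := h.connected

/-- **Clause (b)** from CONN: every finite `p`-primary inertia-stable subgroup of `J1` has no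
unramified subquotient. -/
theorem noTriv_of_conn {p : ℕ} [Fact p.Prime] (hp2 : p ≠ 2) (hC : ConnOrderOfCoordStatement)
    {A : ValuationSubring Qb} (hA : A.LiesOverPrime p)
    {J : Type} [AddCommGroup J] [DistribMulAction GQ J] {g : ℕ} {J1 : AddSubgroup J}
    {z : J → Fin g → Qb} (hz : IsCoordDatumI p A J g J1 z)
    (W1 : AddSubgroup J) [Finite W1] (hW : W1 ≤ J1)
    (hst : ∀ σ ∈ A.inertiaSubgroupIn ℚ, ∀ x ∈ W1, σ • x ∈ W1)
    (htors : ∀ x ∈ W1, ∃ n : ℕ, p ^ n • x = 0) :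
    Fermat.Agent.H14.ORD.NoTrivSubquot (A.inertiaSubgroupIn ℚ : Set GQ) W1 := by
  obtain ⟨Hu, hHu⟩ := hC p A hA J g J1 z hz W1 hW hst
  exact Fermat.Agent.H14.ORD.noTrivSubquot_of_subtypeOrder hp2 (placeFactsStatement p A hA) W1
    hst htors Hu (isConnSubtypeOrder_of_connOrderI W1 hst Hu hHu)

/-- **The S33 contract from the geometric target.** -/
theorem ordinaryTorsion_of_nodal {N p : ℕ} [NeZero N] [Fact p.Prime] (hp2 : p ≠ 2)
    (hC : ConnOrderOfCoordStatement) (h : NodalCoordDatumStatement N p) :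
    Fermat.Agent.H14.ORD.OrdinaryTorsionStatement N p := by
  intro A hA
  obtain ⟨g, J1, z, hz, ha⟩ := h A hA
  refine ⟨1, one_pos, fun n => ?_⟩
  have hp0 : ((p : ℤ) ^ n) ≠ 0 :=
    pow_ne_zero _ (by exact_mod_cast (Fact.out : p.Prime).ne_zero)
  have hcast : ∀ y : JZero N, ((p : ℤ) ^ n) • y = p ^ n • y := by
    intro y
    rw [← natCast_zsmul]
    push_cast
    rfl
  haveI hfinT : Finite ↥(jTors N ((p : ℤ) ^ n)) := Fermat.Agent.H83.FF.torsionFinite N _ hp0
  let W1 : AddSubgroup (JZero N) := J1 ⊓ jTors N ((p : ℤ) ^ n)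
  haveI : Finite ↥W1 := by
    refine Finite.of_injective
      (fun x : ↥W1 => (⟨(x : JZero N), x.2.2⟩ : ↥(jTors N ((p : ℤ) ^ n)))) ?_
    intro a b hab
    exact Subtype.ext (Subtype.mk.inj hab)
  have hst : ∀ σ ∈ A.inertiaSubgroupIn ℚ, ∀ x ∈ W1, σ • x ∈ W1 := fun σ hσ x hx =>
    ⟨hz.inertia_stable σ hσ x hx.1, jTors_stable N _ σ x hx.2⟩
  have htors : ∀ x ∈ W1, ∃ k : ℕ, p ^ k • x = 0 := fun x hx =>
    ⟨n, by rw [← hcast]; exact mem_jTors.mp hx.2⟩
  refine ⟨W1, hst, ?_, noTriv_of_conn hp2 hC hA hz W1 inf_le_left hst htors⟩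
  intro σ hσ x hx
  rw [one_smul]
  refine ⟨ha n σ hσ x hx, ?_⟩
  show σ • x - x ∈ jTors N ((p : ℤ) ^ n)
  have h1 : p ^ n • (σ • x) = σ • (p ^ n • x) :=
    (map_nsmul (DistribSMul.toAddMonoidHom (JZero N) σ) (p ^ n) x).symm
  rw [mem_jTors, hcast, nsmul_sub, h1, hx, smul_zero (A := JZero N) σ, sub_zero]

end Fermat.Agent.H72.ORD

end
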