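/-
P-ORD (S33), helper72: THE FINAL WIRING.

  B1  : `NodalInstanceStatement N' p`  (module `Fermat.Agent.H72.ORD.NodalBlocks`) at the
        auxiliary levels `N'` (`p ∥ N'`, `m ∣ N'`);
  G-A : `Fermat.Agent.H92.ORD.NodalJacCoordStatement`  (helper92: `J1 = nodalJ1 G`, coordinates,
        inertia, (a'));
  SYS : `NodalSysStatement`  (existence of a nodal Jacobi system);
  G-B : `NodalAddStatement`  (the group law is approximable);
  G-C : CONN + relative Hopf lemma (landed: helper42, helper14) ;  LEVEL (landed: helper21).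

  `s33_of_blocks` : the frozen S33, binder for binder.
-/
import Fermat.Agent.H72.ORD.NodalBlocks
import Fermat.Agent.H72.ORD.Assembly
import Fermat.Agent.H92.ORD.NodalJacDefs
import Fermat.Agent.H42.ORD.ConnOrder
import Fermat.Agent.H21.Ord.LevelDescent
import Fermat.Agent.H14.ORD.S33OfOrd

set_option autoImplicit false
set_option synthInstance.maxHeartbeats 400000
set_option linter.style.haveILetI false
set_option linter.unusedSectionVars false

noncomputable section

open AlgebraicCurve ModularCurve Fermat.Agent.H18.ORD Fermat.Agent.H27.ESD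

namespace Fermat.Agent.H72.ORD

open Fermat.Agent.H10.FF Fermat.Agent.H72.FF

/-- The full standing hypotheses contain the standing hypotheses of block (G-A). -/
theorem NodalSetup.toGA {N p : ℕ} {A : ValuationSubring Qb} {Foo F0 : Type} [Field Foo]
    [Field F0] [Algebra (kRes A) Foo] [Algebra (kRes A) F0] {ι : Type}
    {G : NodalData N A Foo F0 ι} {g : ℕ} (h : NodalSetup N p A Foo F0 ι G g) :
    Fermat.Agent.H92.ORD.NodalSetup N p A G g where
  prime := h.prime
  liesOver := h.liesOver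
  rv := h.rv
  gal := h.gal
  node := h.nonempty_nodes
  pkgL := h.pkgL

/-- **[SYS]** Existence of a nodal Jacobi system (in the sense of helper92) under the full
standing hypotheses. -/
def NodalSysStatement : Prop :=
  ∀ (N p : ℕ) (A : ValuationSubring Qb) (Foo F0 : Type) [Field Foo] [Field F0]
    [Algebra (kRes A) Foo] [Algebra (kRes A) F0] (ι : Type) (G : NodalData N A Foo F0 ι)
    (g : ℕ), NodalSetup N p A Foo F0 ι G g →
    ∃ (O : Fin g → Place Qb (FLb N)) (t : Fin g → FLb N),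
      Fermat.Agent.H92.ORD.IsNodalJacSystem G g O t

/-- **[ADD] = block (G-B)** The group law in nodal Jacobi coordinates is approximable by
polynomials over `R = unrInt A` (full standing hypotheses: lifting, Riemann on the components,
count of the nodes). -/
def NodalAddStatement : Prop :=
  ∀ (N p : ℕ) (A : ValuationSubring Qb) (Foo F0 : Type) [Field Foo] [Field F0]
    [Algebra (kRes A) Foo] [Algebra (kRes A) F0] (ι : Type) (G : NodalData N A Foo F0 ι)
    (g : ℕ), NodalSetup N p A Foo F0 ι G g →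
    ∀ (O : Fin g → Place Qb (FLb N)) (t : Fin g → FLb N),
      Fermat.Agent.H92.ORD.IsNodalJacSystem G g O t →
      ∀ (J1 : AddSubgroup (JZero N)) (z : JZero N → Fin g → Qb),
        Fermat.Agent.H92.ORD.IsNodalJacCoord G O t J1 z →
        ∀ S : Finset (JZero N), (∀ c ∈ S, c ∈ J1) → ∀ M : ℕ,
          ∃ Gp : Fin g → MvPolynomial (Fin g ⊕ Fin g) Qb,
            (∀ i m, (Gp i).coeff m ∈ unrInt A) ∧
            ∀ c ∈ S, ∀ c' ∈ S, ∀ i, ∃ a ∈ A,
              z (c + c') i - MvPolynomial.eval (Sum.elim (z c) (z c')) (Gp i) = (p : Qb) ^ M * a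

/-- helper92's form of block (G-B) (with the full standing hypotheses as lifting package) gives
`NodalAddStatement`. -/
theorem nodalAdd_of_ga
    (h : Fermat.Agent.H92.ORD.NodalAddApproxStatement
      (fun N A Foo F0 _ _ _ _ ι G => ∃ (p g : ℕ), NodalSetup N p A Foo F0 ι G g)) :
    NodalAddStatement := by
  intro N p A Foo F0 _ _ _ _ ι G g hS O t hsys J1 z hz S hSJ M
  exact h N p A Foo F0 ι G g hS.toGA ⟨p, g, hS⟩ O t hsys J1 z hz S hSJ M

/-- **The geometric target from the blocks.** -/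
theorem nodalCoordDatum_of_ga_gb (hSys : NodalSysStatement)
    (hCoord : Fermat.Agent.H92.ORD.NodalJacCoordStatement) (hAdd : NodalAddStatement)
    (N p : ℕ) [NeZero N] (hI : NodalInstanceStatement N p) : NodalCoordDatumStatement N p := by
  intro A hA
  obtain ⟨Foo, F0, i1, i2, i3, i4, ι, G, g, hS⟩ := hI A hA
  obtain ⟨O, t, hsys⟩ := hSys N p A Foo F0 ι G g hS
  obtain ⟨z, hz, hmem, hinj, hst, heq, ha⟩ :=
    hCoord N p A Foo F0 ι G g hS.toGA O t hsys
  refine ⟨g, Fermat.Agent.H92.ORD.nodalJ1 G, z, ?_, ha⟩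
  exact
    { z_mem := hmem
      z_inj := hinj
      inertia_stable := hst
      z_equiv := heq
      add_approx := hAdd N p A Foo F0 ι G g hS O t hsys _ z hz }

/-- **The J-side contract of S33 at a level carrying a nodal instance.** -/
theorem ordinaryTorsion_of_ga_gb {N p : ℕ} [NeZero N] [Fact p.Prime] (hp2 : p ≠ 2)
    (hSys : NodalSysStatement) (hCoord : Fermat.Agent.H92.ORD.NodalJacCoordStatement)
    (hAdd : NodalAddStatement) (hI : NodalInstanceStatement N p) :
    Fermat.Agent.H14.ORD.OrdinaryTorsionStatement N p :=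
  ordinaryTorsion_of_nodal hp2 Fermat.Agent.H42.ORD.connOrderOfCoord
    (nodalCoordDatum_of_ga_gb hSys hCoord hAdd N p hI)

/-- **The J-side contract of S33 at every level `N` with `p ∥ N`**, from nodal instances at the
auxiliary levels (`m ∣ N'`, `p ∥ N'`). -/
theorem ordinaryTorsion_of_blocks (p m : ℕ) (hp : p.Prime) (hp2 : p ≠ 2) (hm : m ≠ 0)
    (hpm : Nat.Coprime p m)
    (hSys : NodalSysStatement) (hCoord : Fermat.Agent.H92.ORD.NodalJacCoordStatement)
    (hAdd : NodalAddStatement)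
    (hI : ∀ (N' : ℕ) [NeZero N'], p ∣ N' → ¬ p ^ 2 ∣ N' → m ∣ N' → NodalInstanceStatement N' p)
    (N : ℕ) [NeZero N] (hpN : p ∣ N) (hp2N : ¬ p ^ 2 ∣ N) :
    Fermat.Agent.H14.ORD.OrdinaryTorsionStatement N p := by
  haveI : Fact p.Prime := ⟨hp⟩
  exact Fermat.Agent.H21.Ord.ordinaryTorsion_of_aux p m hp hm hpm
    (fun N' _ h1 h2 h3 => ordinaryTorsion_of_ga_gb hp2 hSys hCoord hAdd (hI N' h1 h2 h3))
    N hpN hp2N

section S33

variable {p : ℕ} {N : ℕ} [NeZero N] {S : Finset ℕ}
  {𝒪 : Type} [CommRing 𝒪] [IsDomain 𝒪] [IsDiscreteValuationRing 𝒪]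
  [IsAdicComplete (IsLocalRing.maximalIdeal 𝒪) 𝒪]
  {θ : CuspForm.heckeAlgebra N 2 (↑S : Set ℕ) →+* IsLocalRing.ResidueField 𝒪}
  {T : Type} [CommRing T] [IsLocalRing T] [IsNoetherianRing T]
  [IsAdicComplete (IsLocalRing.maximalIdeal T) T] [Algebra 𝒪 T] [IsLocalHom (algebraMap 𝒪 T)]
  [Module.Finite 𝒪 T] [Module.Free 𝒪 T]

/-- **The frozen S33 from the blocks** (`m` = the auxiliary level factor, which may depend on
`p`). -/
theorem s33_of_blocks
    (hSys : NodalSysStatement) (hCoord : Fermat.Agent.H92.ORD.NodalJacCoordStatement)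
    (hAdd : NodalAddStatement)
    (hI : ∀ p : ℕ, p.Prime → p ≠ 2 → ∃ m : ℕ, m ≠ 0 ∧ Nat.Coprime p m ∧
      ∀ (N' : ℕ) [NeZero N'], p ∣ N' → ¬ p ^ 2 ∣ N' → m ∣ N' → NodalInstanceStatement N' p)
    [Finite (IsLocalRing.ResidueField 𝒪)] [CharZero 𝒪]
    (hp : p.Prime) (hp2 : p ≠ 2) (hp𝒪 : (p : 𝒪) ∈ IsLocalRing.maximalIdeal 𝒪)
    (hN : p ∣ N ∧ ¬ p ^ 2 ∣ N)
    (hNS : ∀ q : ℕ, q.Prime → q ∣ N → q ∈ S)
    (H : CuspForm.HeckeGaloisRepDatum N (↑S : Set ℕ) 𝒪 θ T)
    (hres : (GaloisRepAdic.ofResidualGaloisRep H.ρ.residual).IsOrdinaryAt p) :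
    H.ρ.IsOrdinaryAt p := by
  obtain ⟨m, hm, hpm, hIm⟩ := hI p hp hp2
  exact Fermat.Agent.H14.ORD.s33_of_ordinaryTorsion
    (ordinaryTorsion_of_blocks p m hp hp2 hm hpm hSys hCoord hAdd hIm N hN.1 hN.2)
    hp hp2 hp𝒪 hN hNS H hres

end S33

end Fermat.Agent.H72.ORD

end
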