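/-
P-ORD (S33), helper72: THE B1 CONTRACT WITH SEPARATING ELEMENTS, and the final wiring on top of
helper94's form of block (G-B).

  `NodalSetupSep N p A Foo F0 ι G g` = `NodalSetup N p A Foo F0 ι G g`
      + a separating element on each of the two components (`sepOo`, `sepZero`);
  `NodalInstanceSepStatement N p`  = THE OUTPUT OF BLOCK B1 (per place `A` over `p`);
  `NodalSetupSep.toPkg`            : the lifting package `Fermat.Agent.H94.ORD.NodalPkg G`
      of block (G-B);
  `s33_of_add_inst`                : the frozen S33, binder for binder, from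
      * (G-B)  `Fermat.Agent.H94.ORD.AddApproxN`,
      * (B1)   `NodalInstanceSepStatement N' p` at the auxiliary levels
  (SYS, (G-A), (G-C), LEVEL are landed and used here).
-/
import Fermat.Agent.H72.ORD.Wiring
import Fermat.Agent.H94.ORD.JacInterfaces
import Fermat.Agent.H69.ORD.NodalSysFull
import Fermat.Agent.H92.ORD.NodalJacCoordClosed

set_option autoImplicit false
set_option synthInstance.maxHeartbeats 400000
set_option linter.style.haveILetI false
set_option linter.unusedSectionVars false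

noncomputable section

open AlgebraicCurve ModularCurve Fermat.Agent.H18.ORD Fermat.Agent.H27.ESD

namespace Fermat.Agent.H72.ORD

open Fermat.Agent.H10.FF Fermat.Agent.H72.FF

/-- "`F / K` has a separating element": `F` is finite and separable over `K(x)` for some
`x ∈ F`. -/
def HasSepElement (K F : Type) [Field K] [Field F] [Algebra K F] : Prop :=
  ∃ x : F, FiniteDimensional (IntermediateField.adjoin K {x}) F ∧
    Algebra.IsSeparable (IntermediateField.adjoin K {x}) F

/-- **Standing hypotheses of the nodal blocks, final form** (= the output of block B1 at the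
place `A`): the standing hypotheses `NodalSetup` and a separating element on each of the two
components of the special fibre. -/
structure NodalSetupSep (N p : ℕ) (A : ValuationSubring Qb) (Foo F0 : Type) [Field Foo]
    [Field F0] [Algebra (kRes A) Foo] [Algebra (kRes A) F0] (ι : Type)
    (G : NodalData N A Foo F0 ι) (g : ℕ) : Prop where
  setup : NodalSetup N p A Foo F0 ι G g
  sepOo : HasSepElement (kRes A) Foo
  sepZero : HasSepElement (kRes A) F0

/-- **OUTPUT OF BLOCK B1, final form**, at the level `N` (an auxiliary level with `p ∥ N`): a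
nodal reduction with all standing hypotheses and separating elements on the components, at every
place over `p`. -/
def NodalInstanceSepStatement (N p : ℕ) : Prop :=
  ∀ A : ValuationSubring Qb, A.LiesOverPrime p →
    ∃ (Foo F0 : Type) (_ : Field Foo) (_ : Field F0) (_ : Algebra (kRes A) Foo)
      (_ : Algebra (kRes A) F0) (ι : Type) (G : NodalData N A Foo F0 ι) (g : ℕ),
      NodalSetupSep N p A Foo F0 ι G g

/-- **[N-SEP]** (row 1152, generic): a function field with the Riemann hypotheses over an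
algebraically closed field has a separating element. -/
def SepOfRRStatement : Prop :=
  ∀ (K F : Type) [Field K] [Field F] [Algebra K F] [IsAlgClosed K],
    Fermat.Agent.H58.RRHyp K F → HasSepElement K F

/-- with [N-SEP], the first form of the B1 contract gives the final one -/
theorem nodalInstanceSep_of_sepRR (hSep : SepOfRRStatement) {N p : ℕ}
    (h : NodalInstanceStatement N p) : NodalInstanceSepStatement N p := by
  intro A hA
  obtain ⟨Foo, F0, i1, i2, i3, i4, ι, G, g, hS⟩ := h A hA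
  haveI := hS.algClosed
  exact ⟨Foo, F0, i1, i2, i3, i4, ι, G, g, hS, hSep _ Foo hS.rrOo, hSep _ F0 hS.rrZero⟩

/-- the final form of the B1 contract contains the first one -/
theorem nodalInstance_of_sep {N p : ℕ} (h : NodalInstanceSepStatement N p) :
    NodalInstanceStatement N p := by
  intro A hA
  obtain ⟨Foo, F0, i1, i2, i3, i4, ι, G, g, hS⟩ := h A hA
  exact ⟨Foo, F0, i1, i2, i3, i4, ι, G, g, hS.setup⟩

section pkg

variable {N p : ℕ} {A : ValuationSubring Qb} {Foo F0 : Type} [Field Foo] [Field F0]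
  [Algebra (kRes A) Foo] [Algebra (kRes A) F0] {ι : Type} {G : NodalData N A Foo F0 ι} {g : ℕ}

/-- **The lifting package of block (G-B)** (helper94's `NodalPkg`) from the standing
hypotheses. -/
theorem NodalSetupSep.toPkg (h : NodalSetupSep N p A Foo F0 ι G g) :
    Fermat.Agent.H94.ORD.NodalPkg G where
  lift := h.setup.lift
  algClosed := h.setup.algClosed
  fin := h.setup.finite_nodes
  nc := by
    intro g' hg'
    haveI := h.setup.algClosed
    haveI : Infinite (kRes A) := IsAlgClosed.instInfinite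
    have hgg : g' = g := RiemannPackage.genus_unique hg' h.setup.pkgL
    refine ⟨genusFF (kRes A) Foo, genusFF (kRes A) F0,
      riemannPackage_of_rrHyp h.setup.rrOo, riemannPackage_of_rrHyp h.setup.rrZero, ?_⟩
    have := h.setup.genus_eq
    subst hgg
    exact_mod_cast this
  sepOo := h.sepOo
  sepZero := h.sepZero

/-- the standing hypotheses of block (G-A) (helper92's `NodalSetup`) -/
theorem NodalSetupSep.toGA (h : NodalSetupSep N p A Foo F0 ι G g) :
    Fermat.Agent.H92.ORD.NodalSetup N p A G g :=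
  h.setup.toGA

end pkg

/-- helper94's form of block (G-B) gives the group-law approximation under the final standing
hypotheses. -/
theorem nodalAdd_of_addApproxN (hAdd : Fermat.Agent.H94.ORD.AddApproxN)
    (N p : ℕ) (A : ValuationSubring Qb) (Foo F0 : Type) [Field Foo] [Field F0]
    [Algebra (kRes A) Foo] [Algebra (kRes A) F0] (ι : Type) (G : NodalData N A Foo F0 ι)
    (g : ℕ) (hS : NodalSetupSep N p A Foo F0 ι G g)
    (O : Fin g → Place Qb (FLb N)) (t : Fin g → FLb N)
    (hsys : Fermat.Agent.H92.ORD.IsNodalJacSystem G g O t)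
    (J1 : AddSubgroup (JZero N)) (z : JZero N → Fin g → Qb)
    (hz : Fermat.Agent.H92.ORD.IsNodalJacCoord G O t J1 z)
    (S : Finset (JZero N)) (hSJ : ∀ c ∈ S, c ∈ J1) (M : ℕ) :
    ∃ Gp : Fin g → MvPolynomial (Fin g ⊕ Fin g) Qb,
      (∀ i m, (Gp i).coeff m ∈ unrInt A) ∧
      ∀ c ∈ S, ∀ c' ∈ S, ∀ i, ∃ a ∈ A,
        z (c + c') i - MvPolynomial.eval (Sum.elim (z c) (z c')) (Gp i) = (p : Qb) ^ M * a :=
  hAdd N p A Foo F0 ι G g hS.toGA hS.toPkg O t hsys J1 z hz S hSJ M

/-- **The geometric target from (G-B) and B1** ((G-A) and SYS are landed). -/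
theorem nodalCoordDatum_of_add_inst (hAdd : Fermat.Agent.H94.ORD.AddApproxN)
    (N p : ℕ) [NeZero N] (hI : NodalInstanceSepStatement N p) :
    NodalCoordDatumStatement N p := by
  intro A hA
  obtain ⟨Foo, F0, i1, i2, i3, i4, ι, G, g, hS⟩ := hI A hA
  obtain ⟨O, t, hsys⟩ :=
    Fermat.Agent.H69.ORD.nodalSys_of_fullSetup N p A Foo F0 ι G g hS.setup
  obtain ⟨z, hz, hmem, hinj, hst, heq, ha⟩ :=
    Fermat.Agent.H92.ORD.nodalJacCoordClosed N p A Foo F0 ι G g hS.toGA O t hsys
  refine ⟨g, Fermat.Agent.H92.ORD.nodalJ1 G, z, ?_, ha⟩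
  exact
    { z_mem := hmem
      z_inj := hinj
      inertia_stable := hst
      z_equiv := heq
      add_approx := nodalAdd_of_addApproxN hAdd N p A Foo F0 ι G g hS O t hsys _ z hz }

/-- **The J-side contract of S33 at a level carrying a nodal instance.** -/
theorem ordinaryTorsion_of_add_inst {N p : ℕ} [NeZero N] [Fact p.Prime] (hp2 : p ≠ 2)
    (hAdd : Fermat.Agent.H94.ORD.AddApproxN) (hI : NodalInstanceSepStatement N p) :
    Fermat.Agent.H14.ORD.OrdinaryTorsionStatement N p :=
  ordinaryTorsion_of_nodal hp2 Fermat.Agent.H42.ORD.connOrderOfCoord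
    (nodalCoordDatum_of_add_inst hAdd N p hI)

/-- **The J-side contract of S33 at every level `N` with `p ∥ N`**, from nodal instances at the
auxiliary levels (`m ∣ N'`, `p ∥ N'`). -/
theorem ordinaryTorsion_of_add_aux (p m : ℕ) (hp : p.Prime) (hp2 : p ≠ 2) (hm : m ≠ 0)
    (hpm : Nat.Coprime p m) (hAdd : Fermat.Agent.H94.ORD.AddApproxN)
    (hI : ∀ (N' : ℕ) [NeZero N'], p ∣ N' → ¬ p ^ 2 ∣ N' → m ∣ N' →
      NodalInstanceSepStatement N' p)
    (N : ℕ) [NeZero N] (hpN : p ∣ N) (hp2N : ¬ p ^ 2 ∣ N) :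
    Fermat.Agent.H14.ORD.OrdinaryTorsionStatement N p := by
  haveI : Fact p.Prime := ⟨hp⟩
  exact Fermat.Agent.H21.Ord.ordinaryTorsion_of_aux p m hp hm hpm
    (fun N' _ h1 h2 h3 => ordinaryTorsion_of_add_inst hp2 hAdd (hI N' h1 h2 h3))
    N hpN hp2N

section S33

variable {p : ℕ} {N : ℕ} [NeZero N] {S : Finset ℕ}
  {𝒪 : Type} [CommRing 𝒪] [IsDomain 𝒪] [IsDiscreteValuationRing 𝒪]
  [IsAdicComplete (IsLocalRing.maximalIdeal 𝒪) 𝒪]
  {θ : CuspForm.heckeAlgebra N 2 (↑S : Set ℕ) →+* IsLocalRing.ResidueField 𝒪}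
  {T : Type} [CommRing T] [IsLocalRing T] [IsNoetherianRing T]
  [IsAdicComplete (IsLocalRing.maximalIdeal T) T] [Algebra 𝒪 T] [IsLocalHom (algebraMap 𝒪 T)]
  [Module.Finite 𝒪 T] [Module.Free 𝒪 T]

/-- **The frozen S33 from (G-B) and B1** (`m` = the auxiliary level factor, which may depend on
`p`). -/
theorem s33_of_add_inst (hAdd : Fermat.Agent.H94.ORD.AddApproxN)
    (hI : ∀ p : ℕ, p.Prime → p ≠ 2 → ∃ m : ℕ, m ≠ 0 ∧ Nat.Coprime p m ∧
      ∀ (N' : ℕ) [NeZero N'], p ∣ N' → ¬ p ^ 2 ∣ N' → m ∣ N' →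
        NodalInstanceSepStatement N' p)
    [Finite (IsLocalRing.ResidueField 𝒪)] [CharZero 𝒪]
    (hp : p.Prime) (hp2 : p ≠ 2) (hp𝒪 : (p : 𝒪) ∈ IsLocalRing.maximalIdeal 𝒪)
    (hN : p ∣ N ∧ ¬ p ^ 2 ∣ N)
    (hNS : ∀ q : ℕ, q.Prime → q ∣ N → q ∈ S)
    (H : CuspForm.HeckeGaloisRepDatum N (↑S : Set ℕ) 𝒪 θ T)
    (hres : (GaloisRepAdic.ofResidualGaloisRep H.ρ.residual).IsOrdinaryAt p) :
    H.ρ.IsOrdinaryAt p := by
  obtain ⟨m, hm, hpm, hIm⟩ := hI p hp hp2
  exact Fermat.Agent.H14.ORD.s33_of_ordinaryTorsion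
    (ordinaryTorsion_of_add_aux p m hp hp2 hm hpm hAdd hIm N hN.1 hN.2)
    hp hp2 hp𝒪 hN hNS H hres

/-- **The frozen S33 from (G-B), [N-SEP] and B1 in its first form** (`NodalInstanceStatement` at
the auxiliary levels). -/
theorem s33_of_add_sep_inst (hAdd : Fermat.Agent.H94.ORD.AddApproxN) (hSep : SepOfRRStatement)
    (hI : ∀ p : ℕ, p.Prime → p ≠ 2 → ∃ m : ℕ, m ≠ 0 ∧ Nat.Coprime p m ∧
      ∀ (N' : ℕ) [NeZero N'], p ∣ N' → ¬ p ^ 2 ∣ N' → m ∣ N' →
        NodalInstanceStatement N' p)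
    [Finite (IsLocalRing.ResidueField 𝒪)] [CharZero 𝒪]
    (hp : p.Prime) (hp2 : p ≠ 2) (hp𝒪 : (p : 𝒪) ∈ IsLocalRing.maximalIdeal 𝒪)
    (hN : p ∣ N ∧ ¬ p ^ 2 ∣ N)
    (hNS : ∀ q : ℕ, q.Prime → q ∣ N → q ∈ S)
    (H : CuspForm.HeckeGaloisRepDatum N (↑S : Set ℕ) 𝒪 θ T)
    (hres : (GaloisRepAdic.ofResidualGaloisRep H.ρ.residual).IsOrdinaryAt p) :
    H.ρ.IsOrdinaryAt p :=
  s33_of_add_inst hAdd
    (fun q hq hq2 => by
      obtain ⟨m, hm, hqm, hIm⟩ := hI q hq hq2
      exact ⟨m, hm, hqm, fun N' _ h1 h2 h3 => nodalInstanceSep_of_sepRR hSep (hIm N' h1 h2 h3)⟩)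
    hp hp2 hp𝒪 hN hNS H hres

end S33

end Fermat.Agent.H72.ORD

end
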