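/-
P-ORD (S33), helper72: THE LAST WIRING STEP for helper84's concrete nodal model `nmG`.

* `nmF_hasSep` : the component field `NmF (M p) A` of `nmG` has a separating element
  (= the level-`M` field in characteristic `p`, helper66's RANGE / helper92's `b1_nmResField_eq`,
  + helper89's `ffModLStatement`), so the generic separating-element row (N-SEP) is NOT needed
  for S33;
* `b1_instanceSep_all` : the final form of the B1 contract from the block statements
  (`Fermat.Agent.H92.ORD.NmBlocks M p`);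
* `s33_of_add_nm` : the frozen S33 from
    (G-B) `Fermat.Agent.H94.ORD.AddApproxN`   and   (B1) `NmBlocks M p` (`p` odd, `p ∤ M`, `4 ∣ M`).
-/
import Fermat.Agent.H72.ORD.NodalSep
import Fermat.Agent.H92.ORD.NodalAsm
import Fermat.Agent.H89.ESDA3

set_option autoImplicit false
set_option synthInstance.maxHeartbeats 400000
set_option linter.style.haveILetI false
set_option linter.unusedSectionVars false

noncomputable section

open AlgebraicCurve ModularCurve Fermat.Agent.H18.ORD Fermat.Agent.H27.ESD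

namespace Fermat.Agent.H72.ORD

open Fermat.Agent.H10.FF Fermat.Agent.H72.FF Fermat.Agent.H84.ORD Fermat.Agent.H92.ORD

/-- separating elements are transported along an equality of intermediate fields -/
theorem hasSepElement_of_eq {K L : Type} [Field K] [Field L] [Algebra K L]
    (E E' : IntermediateField K L) (h : E = E') (hE : HasSepElement K ↥E') :
    @HasSepElement K ↥E _ _ E.toSubalgebra.algebra := by
  subst h
  exact hE

/-- **The component field of `nmG` has a separating element.** -/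
theorem nmF_hasSep (M p : ℕ) [NeZero M] [NeZero p] (hp : p.Prime) (hpM : ¬ p ∣ M)
    (A : ValuationSubring Qb) (hA : A.LiesOverPrime p) :
    HasSepElement (kRes A) (NmF (M * p) A) := by
  haveI : Fact p.Prime := ⟨hp⟩
  obtain ⟨-, x, -, hfin, hsep⟩ := Fermat.Agent.H89.ffModLStatement M p hpM A hA
  exact hasSepElement_of_eq _ _ (b1_nmResField_eq M p hp hpM A hA) ⟨x, hfin, hsep⟩

/-- **B1 at the level `M p`, final form** (with the separating elements). -/
theorem b1_instanceSep_mul {M p : ℕ} [NeZero M] [NeZero p] (hp : p.Prime) (hp2 : p ≠ 2)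
    (hcop : Nat.Coprime M p) (h4 : 4 ∣ M) (hb : NmBlocks M p) :
    NodalInstanceSepStatement (M * p) p := by
  intro A hA
  have h : NmSetup M p A :=
    { prime := hp, odd := hp2, cop := hcop, four := h4, liesOver := hA }
  have hpM : ¬ p ∣ M := fun hd =>
    hp.one_lt.ne' (Nat.Coprime.eq_one_of_dvd hcop.symm hd)
  have hsep := nmF_hasSep M p hp hpM A hA
  exact ⟨NmF (M * p) A, NmF (M * p) A, inferInstance, inferInstance, inferInstance,
    inferInstance, NmNode M p h.cop A, nmG (hb.tot A h), genusFF Qb (FLb (M * p)),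
    b1_nodalSetup hb.rv hb.gal hb.lift hb.nodes hb.genus A h (hb.tot A h), hsep, hsep⟩

/-- **B1, final form** = the hypothesis `hI` of `s33_of_add_inst`, with the auxiliary factor
`m = 4`. -/
theorem b1_instanceSep_all
    (hB : ∀ (M p : ℕ) [NeZero M] [NeZero p], p.Prime → p ≠ 2 → Nat.Coprime M p → 4 ∣ M →
      NmBlocks M p) :
    ∀ p : ℕ, p.Prime → p ≠ 2 → ∃ m : ℕ, m ≠ 0 ∧ Nat.Coprime p m ∧
      ∀ (N' : ℕ) [NeZero N'], p ∣ N' → ¬ p ^ 2 ∣ N' → m ∣ N' →
        NodalInstanceSepStatement N' p := by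
  intro p hp hp2
  have hcop4 : Nat.Coprime p 4 := by
    have h2 : Nat.Coprime p 2 := (Nat.coprime_primes hp Nat.prime_two).2 hp2
    exact Nat.Coprime.pow_right 2 h2
  refine ⟨4, by norm_num, hcop4, ?_⟩
  intro N' _ hpN hp2N h4N
  obtain ⟨M, rfl⟩ := hpN
  have hM0 : M ≠ 0 := by
    rintro rfl
    exact (NeZero.ne (p * 0)) (by simp)
  haveI : NeZero M := ⟨hM0⟩
  haveI : NeZero p := ⟨hp.ne_zero⟩
  have hpM : ¬ p ∣ M := by
    rintro ⟨M', rfl⟩
    exact hp2N ⟨M', by ring⟩
  have hcop : Nat.Coprime M p := ((Nat.Prime.coprime_iff_not_dvd hp).2 hpM).symm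
  have h4M : 4 ∣ M := (Nat.Coprime.dvd_mul_left hcop4.symm).1 h4N
  have key := b1_instanceSep_mul hp hp2 hcop h4M (hB M p hp hp2 hcop h4M)
  have e : M * p = p * M := mul_comm M p
  intro A hA
  obtain ⟨Foo, F0, i1, i2, i3, i4, ι, G, g, hS⟩ := key A hA
  revert G
  rw [e]
  intro G hS
  exact ⟨Foo, F0, i1, i2, i3, i4, ι, G, g, hS⟩

section S33

variable {p : ℕ} {N : ℕ} [NeZero N] {S : Finset ℕ}
  {𝒪 : Type} [CommRing 𝒪] [IsDomain 𝒪] [IsDiscreteValuationRing 𝒪]
  [IsAdicComplete (IsLocalRing.maximalIdeal 𝒪) 𝒪]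
  {θ : CuspForm.heckeAlgebra N 2 (↑S : Set ℕ) →+* IsLocalRing.ResidueField 𝒪}
  {T : Type} [CommRing T] [IsLocalRing T] [IsNoetherianRing T]
  [IsAdicComplete (IsLocalRing.maximalIdeal T) T] [Algebra 𝒪 T] [IsLocalHom (algebraMap 𝒪 T)]
  [Module.Finite 𝒪 T] [Module.Free 𝒪 T]

/-- **The frozen S33 from (G-B) and the block statements of the concrete nodal model.** -/
theorem s33_of_add_nm (hAdd : Fermat.Agent.H94.ORD.AddApproxN)
    (hB : ∀ (M p : ℕ) [NeZero M] [NeZero p], p.Prime → p ≠ 2 → Nat.Coprime M p → 4 ∣ M →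
      NmBlocks M p)
    [Finite (IsLocalRing.ResidueField 𝒪)] [CharZero 𝒪]
    (hp : p.Prime) (hp2 : p ≠ 2) (hp𝒪 : (p : 𝒪) ∈ IsLocalRing.maximalIdeal 𝒪)
    (hN : p ∣ N ∧ ¬ p ^ 2 ∣ N)
    (hNS : ∀ q : ℕ, q.Prime → q ∣ N → q ∈ S)
    (H : CuspForm.HeckeGaloisRepDatum N (↑S : Set ℕ) 𝒪 θ T)
    (hres : (GaloisRepAdic.ofResidualGaloisRep H.ρ.residual).IsOrdinaryAt p) :
    H.ρ.IsOrdinaryAt p :=
  s33_of_add_inst hAdd (b1_instanceSep_all hB) hp hp2 hp𝒪 hN hNS H hres

end S33

end Fermat.Agent.H72.ORD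

end
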